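import Fermat.Agent.RealQuadraticClasses.Residues
import Mathlib.NumberTheory.NumberField.Units.DirichletTheorem
import Mathlib.RingTheory.ClassGroup.Basic
import Mathlib.RingTheory.Trace.Basic
import Mathlib.GroupTheory.Exponent

/-!
# Two classes killed by `n` in a real quadratic field

Let `δ² = D = x² - 4 zⁿ = x'² - 4 z'ⁿ`, `D > 0` no square. The classes of `(z, α)`, `(z', α')`,
`α = (x + δ)/2`, `α' = (x' + δ)/2`, are killed by `n`. If both were killed by `n / l` then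
`α = ± η^a β^l`, `α' = ± η^b γ^l` for the fundamental unit `η`, which separating primes exclude.
So there is a class of order exactly `n`.
-/

set_option autoImplicit false
set_option linter.style.haveILetI false

noncomputable section

namespace FA.RealQuadClasses

open NumberField Module Multiplicative
open scoped nonZeroDivisors

variable {K : Type*} [Field K] [NumberField K] {D : ℤ} {δ : K}

theorem coe_ne_sqrt (hD : ¬ IsSquare D) (hδ : δ ^ 2 = (D : K)) (r : ℚ) : (r : K) ≠ δ := fun h => by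
  refine hD (Rat.isSquare_intCast_iff.1 ⟨r, ?_⟩)
  rw [← h] at hδ
  rw [← pow_two]
  exact (by exact_mod_cast hδ : r ^ 2 = (D : ℚ)).symm

/-- Coordinates, and the trace. -/
theorem exists_coords_trace (hK : finrank ℚ K = 2) (hD : ¬ IsSquare D) (hδ : δ ^ 2 = (D : K))
    (r : K) : ∃ u v : ℚ, r = (u : K) + (v : K) * δ ∧ Algebra.trace ℚ K r = 2 * u ∧
      Algebra.trace ℚ K (r * δ) = 2 * (D : ℚ) * v := by
  have hli : LinearIndependent ℚ ![1, δ] :=
    (LinearIndependent.pair_iff' one_ne_zero).2 fun q e => coe_ne_sqrt hD hδ q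
      (by rwa [Rat.smul_def, mul_one] at e)
  set B := basisOfLinearIndependentOfCardEqFinrank hli (by rw [Fintype.card_fin, hK]) with hB
  have hB0 : B 0 = 1 := by simp [hB]
  have hB1 : B 1 = δ := by simp [hB]
  have hrepr : ∀ y : K, y = ((B.repr y 0 : ℚ) : K) + ((B.repr y 1 : ℚ) : K) * δ := fun y => by
    conv_lhs => rw [← B.sum_repr y]
    simp [Fin.sum_univ_two, hB0, hB1, Rat.smul_def]
  have huniq : ∀ a b : ℚ, B.repr ((a : K) + (b : K) * δ) 0 = a ∧
      B.repr ((a : K) + (b : K) * δ) 1 = b := fun a b => by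
    rw [show (a : K) + (b : K) * δ = a • B 0 + b • B 1 by simp [hB0, hB1, Rat.smul_def],
      map_add, map_smul, map_smul, B.repr_self, B.repr_self]
    simp
  have htr : ∀ a b : ℚ, Algebra.trace ℚ K ((a : K) + (b : K) * δ) = 2 * a := fun a b => by
    rw [Algebra.trace_eq_matrix_trace B, Matrix.trace_fin_two, Algebra.leftMulMatrix_eq_repr_mul,
      Algebra.leftMulMatrix_eq_repr_mul, hB0, hB1, mul_one, (huniq a b).1,
      show ((a : K) + (b : K) * δ) * δ = ((D * b : ℚ) : K) + (a : K) * δ by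
        push_cast; linear_combination (b : K) * hδ, (huniq _ a).2]
    ring
  refine ⟨_, _, hrepr r, ?_, ?_⟩
  · conv_lhs => rw [hrepr r]
    exact htr _ _
  · conv_lhs => rw [hrepr r]
    rw [show (((B.repr r 0 : ℚ) : K) + ((B.repr r 1 : ℚ) : K) * δ) * δ =
      ((D * B.repr r 1 : ℚ) : K) + ((B.repr r 0 : ℚ) : K) * δ by
        push_cast; linear_combination ((B.repr r 1 : ℚ) : K) * hδ, htr]
    ring

/-- `2 D r` is an integral combination of `1` and `δ`. -/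
theorem exists_int_coords (hK : finrank ℚ K = 2) (hD : ¬ IsSquare D) (hδ : δ ^ 2 = (D : K))
    (r : 𝓞 K) : ∃ T W : ℤ, 2 * (D : K) * r = (D : K) * T + (W : K) * δ := by
  obtain ⟨u, v, huv, h1, h2⟩ := exists_coords_trace hK hD hδ (r : K)
  have hδint : IsIntegral ℤ δ := IsIntegral.of_pow two_pos (hδ ▸ isIntegral_algebraMap)
  obtain ⟨T, hT⟩ := IsIntegrallyClosed.isIntegral_iff.1
    (Algebra.isIntegral_trace (L := ℚ) r.isIntegral_coe)
  obtain ⟨W, hW⟩ := IsIntegrallyClosed.isIntegral_iff.1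
    (Algebra.isIntegral_trace (L := ℚ) (r.isIntegral_coe.mul hδint))
  rw [h1, eq_intCast] at hT
  rw [h2, eq_intCast] at hW
  refine ⟨T, W, ?_⟩
  rw [← Rat.cast_intCast T, ← Rat.cast_intCast W, hT, hW, huv]
  push_cast
  ring

/-- The reduction at a split prime with `δ ↦ a`. -/
theorem exists_residue (hK : finrank ℚ K = 2) (hD : ¬ IsSquare D) {δ₀ : 𝓞 K}
    (hδ : (δ₀ : K) ^ 2 = (D : K)) {q : ℕ} [Fact q.Prime] (hq2 : q ≠ 2) {a : ℤ}
    (ha : (a : ZMod q) ≠ 0) (hDa : (D : ZMod q) = (a : ZMod q) ^ 2) :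
    ∃ π : 𝓞 K →+* ZMod q, π δ₀ = (a : ZMod q) := by
  have hq : q.Prime := Fact.out
  have hDq : (D : ZMod q) ≠ 0 := by rw [hDa]; exact pow_ne_zero 2 ha
  have h20 : (2 : ZMod q) ≠ 0 := fun h => hq2 ((Nat.prime_dvd_prime_iff_eq hq Nat.prime_two).1
    ((ZMod.natCast_eq_zero_iff 2 q).1 (by exact_mod_cast h)))
  have hne : Ideal.span {(q : 𝓞 K)} ⊔ Ideal.span {δ₀ - (a : 𝓞 K)} ≠ ⊤ := fun htop => by
    obtain ⟨_, hx, _, hy, hxy⟩ := Submodule.mem_sup.1
      (show (1 : 𝓞 K) ∈ Ideal.span {(q : 𝓞 K)} ⊔ Ideal.span {δ₀ - (a : 𝓞 K)} by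
        rw [htop]; trivial)
    obtain ⟨b, rfl⟩ := Ideal.mem_span_singleton'.1 hx
    obtain ⟨c, rfl⟩ := Ideal.mem_span_singleton'.1 hy
    obtain ⟨e, he⟩ : (q : ℤ) ∣ D - a ^ 2 := by
      rw [← ZMod.intCast_zmod_eq_zero_iff_dvd]
      push_cast
      rw [hDa, sub_self]
    obtain ⟨T, W, hTW⟩ := exists_int_coords hK hD hδ (b * (δ₀ + a) + c * e)
    have hxy' := congrArg (fun r : 𝓞 K => (r : K)) hxy
    have he' : (D : K) - (a : K) ^ 2 = (q : K) * e := by
      exact_mod_cast congrArg (Int.cast : ℤ → K) he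
    push_cast [map_intCast, map_natCast] at hxy' hTW
    have h3 : ((q * W - 2 * D : ℤ) : K) * δ₀ = ((2 * D * a - q * D * T : ℤ) : K) := by
      push_cast
      linear_combination (-(q : K)) * hTW + (2 * (D : K) * ((δ₀ : K) + a)) * hxy'
        - 2 * (D : K) * (c : K) * hδ - 2 * (D : K) * (c : K) * he'
    have hW0 : q * W - 2 * D = 0 := by
      by_contra h
      refine coe_ne_sqrt hD hδ ((2 * D * a - q * D * T : ℤ) / (q * W - 2 * D : ℤ) : ℚ) ?_
      rw [Rat.cast_div, Rat.cast_intCast, Rat.cast_intCast,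
        div_eq_iff (Int.cast_ne_zero.2 h), ← h3, mul_comm]
    have := congrArg (Int.cast : ℤ → ZMod q) hW0
    push_cast at this
    rw [ZMod.natCast_self, zero_mul, zero_sub, neg_eq_zero] at this
    exact (mul_ne_zero h20 hDq) this
  obtain ⟨M, hM, hle⟩ := Ideal.exists_le_maximal _ hne
  haveI := hM
  letI : Field (𝓞 K ⧸ M) := Ideal.Quotient.field M
  set π := Ideal.Quotient.mk M with hπ
  have hq0 : (q : 𝓞 K ⧸ M) = 0 := by
    rw [← map_natCast π q, hπ, Ideal.Quotient.eq_zero_iff_mem]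
    exact hle (Ideal.mem_sup_left (Ideal.mem_span_singleton_self _))
  haveI : CharP (𝓞 K ⧸ M) q := (CharP.charP_iff_prime_eq_zero hq).2 hq0
  set φ : ZMod q →+* 𝓞 K ⧸ M := ZMod.castHom dvd_rfl _
  have hπδ : π δ₀ = φ a := by
    rw [map_intCast, ← map_intCast π, hπ, Ideal.Quotient.eq]
    exact hle (Ideal.mem_sup_right (Ideal.mem_span_singleton_self _))
  have hsurj : Function.Surjective φ := by
    intro y
    obtain ⟨r, rfl⟩ := Ideal.Quotient.mk_surjective y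
    obtain ⟨T, W, hTW⟩ := exists_int_coords hK hD hδ r
    have h3 : 2 * (D : 𝓞 K) * r = (D : 𝓞 K) * T + (W : 𝓞 K) * δ₀ := RingOfIntegers.ext (by
      push_cast [map_intCast]; exact hTW)
    have h4 := congrArg π h3
    simp only [map_mul, map_add, map_intCast, map_ofNat, hπδ] at h4
    refine ⟨((D : ZMod q) * T + W * a) / (2 * D), ?_⟩
    have h5 : φ (2 * (D : ZMod q)) ≠ 0 := (map_ne_zero φ).2 (mul_ne_zero h20 hDq)
    rw [map_div₀, div_eq_iff h5]
    simp only [map_mul, map_add, map_intCast, map_ofNat, ← hπ]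
    linear_combination -h4
  refine ⟨(RingEquiv.ofBijective φ ⟨φ.injective, hsurj⟩).symm.toRingHom.comp π, ?_⟩
  rw [RingHom.comp_apply, RingEquiv.toRingHom_eq_coe, RingEquiv.coe_toRingHom,
    RingEquiv.symm_apply_eq, hπδ]
  rfl

/-- The units are `± η ^ a`. -/
theorem exists_unit_generator (hK : finrank ℚ K = 2) (hD : ¬ IsSquare D) (hD0 : 0 < D)
    (hδ : δ ^ 2 = (D : K)) :
    ∃ η : (𝓞 K)ˣ, ∀ u : (𝓞 K)ˣ, ∃ a : ℤ, u = η ^ a ∨ u = -(η ^ a) := by
  classical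
  obtain ⟨e⟩ : Nonempty (K →+* ℂ) := inferInstance
  have he : (e δ).im = 0 := by
    have h : e δ ^ 2 = ((Real.sqrt D : ℝ) : ℂ) ^ 2 := by
      rw [← map_pow, hδ, map_intCast, ← Complex.ofReal_pow, Real.sq_sqrt (by positivity),
        Complex.ofReal_intCast]
    rcases sq_eq_sq_iff_eq_or_eq_neg.1 h with h | h <;> simp [h]
  have hreal : ∀ r : K, (e r).im = 0 := fun r => by
    obtain ⟨a, b, hr, -, -⟩ := exists_coords_trace hK hD hδ r
    simp [hr, he]
  have htors : ∀ ζ : (𝓞 K)ˣ, ζ ∈ Units.torsion K → ζ = 1 ∨ ζ = -1 := fun ζ hζ => by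
    have h1 := (Units.mem_torsion K).1 hζ (InfinitePlace.mk e)
    rw [InfinitePlace.apply] at h1
    set r : K := ((ζ : 𝓞 K) : K)
    have h2 : e r = ((e r).re : ℂ) := Complex.ext rfl (by simp [hreal r])
    rw [h2, Complex.norm_real, Real.norm_eq_abs] at h1
    rcases (abs_eq zero_le_one).1 h1 with h3 | h3
    · refine Or.inl (Units.ext (RingOfIntegers.ext (e.injective ?_)))
      simpa [h3] using h2
    · refine Or.inr (Units.ext (RingOfIntegers.ext (e.injective ?_)))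
      simpa [h3] using h2
  have hrank : Units.rank K ≤ 1 := by
    have h := Finset.card_nsmul_le_sum (Finset.univ : Finset (InfinitePlace K))
      (fun w => w.mult) 1 fun w _ => w.mult_pos
    rw [InfinitePlace.sum_mult_eq, hK, smul_eq_mul, mul_one, Finset.card_univ] at h
    rw [Units.rank]
    omega
  haveI : Subsingleton (Fin (Units.rank K)) := ⟨fun i j => Fin.ext (by omega)⟩
  refine ⟨∏ i, Units.fundSystem K i, fun u => ?_⟩
  obtain ⟨⟨ζ, a⟩, h, -⟩ := Units.exist_unique_eq_mul_prod K u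
  refine ⟨∑ i, a i, ?_⟩
  have hp : ∏ i, Units.fundSystem K i ^ a i = (∏ i, Units.fundSystem K i) ^ (∑ i, a i) := by
    rw [← Finset.prod_zpow]
    refine Finset.prod_congr rfl fun i _ => ?_
    rw [Fintype.sum_subsingleton a i]
  rw [h, hp]
  rcases htors ζ ζ.2 with hz | hz
  · exact Or.inl (by rw [hz, one_mul])
  · exact Or.inr (by rw [hz, neg_one_mul])

omit [NumberField K] in
/-- The value of a character at `± η ^ a β ^ l`. -/
theorem char_eval {q l : ℕ} [Fact q.Prime] (hl : 0 < l) (π : 𝓞 K →+* ZMod q)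
    {ψ : (ZMod q)ˣ →* Multiplicative (ZMod l)} (h1 : ψ (-1) = 1) {α β : 𝓞 K} {η u : (𝓞 K)ˣ}
    {a : ℤ} (hu : u = η ^ a ∨ u = -(η ^ a)) (hα : α = u * β ^ l) {w : (ZMod q)ˣ}
    (hw : π α = (w : ZMod q)) :
    toAdd (ψ w) = (a : ZMod l) * toAdd (ψ (Units.map π.toMonoidHom η)) := by
  have hβ : π β ≠ 0 := fun h => w.ne_zero (by
    rw [← hw, hα, map_mul, map_pow, h, zero_pow hl.ne', mul_zero])
  have hw' : w = Units.map π.toMonoidHom u * Units.mk0 _ hβ ^ l := Units.ext (by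
    simp [← hw, hα])
  have hneg : ∀ t : (𝓞 K)ˣ, Units.map π.toMonoidHom (-t) = -1 * Units.map π.toMonoidHom t :=
    fun t => Units.ext (by simp)
  have hu' : ψ (Units.map π.toMonoidHom u) = ψ (Units.map π.toMonoidHom η) ^ a := by
    rcases hu with rfl | rfl
    · rw [map_zpow, map_zpow]
    · rw [hneg, map_mul, h1, one_mul, map_zpow, map_zpow]
  rw [hw', map_mul, map_pow, toAdd_mul, toAdd_pow, nsmul_eq_mul, ZMod.natCast_self, zero_mul,
    add_zero, hu', toAdd_zpow, zsmul_eq_mul]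

theorem sup_pow_le {R : Type*} [CommRing R] (A B : Ideal R) (n : ℕ) :
    (A ⊔ B) ^ n ≤ A ^ n ⊔ B := by
  induction n with
  | zero => simp
  | succ k ih =>
    rw [pow_succ, pow_succ]
    refine (Ideal.mul_mono_left ih).trans ?_
    rw [Ideal.sup_mul, Ideal.mul_sup, Ideal.mul_sup]
    exact sup_le (sup_le le_sup_left (le_sup_of_le_right (Ideal.mul_le_inf.trans inf_le_right)))
      (sup_le (le_sup_of_le_right (Ideal.mul_le_inf.trans inf_le_left))
        (le_sup_of_le_right (Ideal.mul_le_inf.trans inf_le_left)))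

/-- `(w, α) ^ n = (α)` for coprime `α`, `β` with product `w ^ n`. -/
theorem span_sup_pow_eq {R : Type*} [CommRing R] {α β w : R} {n : ℕ} (hn : 0 < n)
    (h : α * β = w ^ n) (hcop : IsCoprime α β) :
    (Ideal.span {w} ⊔ Ideal.span {α}) ^ n = Ideal.span {α} := by
  refine le_antisymm ((sup_pow_le _ _ n).trans (sup_le ?_ le_rfl)) ?_
  · rw [Ideal.span_singleton_pow, Ideal.span_singleton_le_span_singleton]
    exact ⟨β, h.symm⟩
  · obtain ⟨k, rfl⟩ : ∃ k, n = k + 1 := ⟨n - 1, by omega⟩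
    obtain ⟨u, t, hut⟩ := hcop.pow_left (m := k)
    rw [Ideal.span_singleton_le_iff_mem]
    have hα : u * α ^ (k + 1) + t * w ^ (k + 1) = α := by
      rw [pow_succ α, ← h]; linear_combination α * hut
    have h1 : α ∈ Ideal.span {w} ⊔ Ideal.span {α} :=
      Ideal.mem_sup_right (Ideal.mem_span_singleton_self α)
    have h2 : w ∈ Ideal.span {w} ⊔ Ideal.span {α} :=
      Ideal.mem_sup_left (Ideal.mem_span_singleton_self w)
    have h3 := add_mem (Ideal.mul_mem_left _ u (Ideal.pow_mem_pow h1 (k + 1)))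
      (Ideal.mul_mem_left _ t (Ideal.pow_mem_pow h2 (k + 1)))
    rwa [hα] at h3

/-- The class killed by `n`. -/
theorem exists_class {n : ℕ} (hn : 0 < n) {x z : ℤ} (hz : z ≠ 0) (heq : D = x ^ 2 - 4 * z ^ n)
    (hcop : IsCoprime z x) (hδ : δ ^ 2 = (D : K)) :
    ∃ (α : 𝓞 K) (c : ClassGroup (𝓞 K)), 2 * (α : K) = x + δ ∧ c ^ n = 1 ∧
      ∀ l : ℕ, l ∣ n → c ^ (n / l) = 1 → ∃ (u : (𝓞 K)ˣ) (β : 𝓞 K), α = u * β ^ l := by
  have heqK : (D : K) = (x : K) ^ 2 - 4 * (z : K) ^ n := by rw [heq]; push_cast; ring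
  have hint : IsIntegral ℤ (((x : K) + δ) / 2) :=
    ⟨Polynomial.X ^ 2 - Polynomial.C x * Polynomial.X + Polynomial.C (z ^ n), by monicity!, by
      rw [← Polynomial.aeval_def]
      simp only [map_add, map_sub, map_mul, map_pow, Polynomial.aeval_X, eq_intCast, map_intCast]
      linear_combination (1 / 4 : K) * hδ + (1 / 4 : K) * heqK⟩
  obtain ⟨α, hα⟩ : ∃ α : 𝓞 K, (α : K) = ((x : K) + δ) / 2 := ⟨⟨_, hint⟩, rfl⟩
  set β' : 𝓞 K := (x : 𝓞 K) - α with hβ'
  have hprod : α * β' = (z : 𝓞 K) ^ n := RingOfIntegers.ext (by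
    push_cast [hβ', hα, map_intCast]
    linear_combination (-1 / 4 : K) * hδ + (-1 / 4 : K) * heqK)
  obtain ⟨a, b, hab⟩ := hcop.pow_left (m := n)
  have hab' : (a : 𝓞 K) * (z : 𝓞 K) ^ n + (b : 𝓞 K) * (x : 𝓞 K) = 1 := by
    exact_mod_cast congrArg (Int.cast : ℤ → 𝓞 K) hab
  have hIn := span_sup_pow_eq hn hprod ⟨(a : 𝓞 K) * β' + b, b, by
    rw [hβ'] at hprod ⊢
    linear_combination (a : 𝓞 K) * hprod + hab'⟩
  set I : Ideal (𝓞 K) := Ideal.span {(z : 𝓞 K)} ⊔ Ideal.span {α}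
  have hI0 : I ∈ (Ideal (𝓞 K))⁰ := mem_nonZeroDivisors_iff_ne_zero.2 fun h => by
    have h2 : (z : 𝓞 K) ∈ I := Ideal.mem_sup_left (Ideal.mem_span_singleton_self _)
    rw [h, Ideal.zero_eq_bot, Ideal.mem_bot] at h2
    exact Int.cast_ne_zero.2 hz h2
  refine ⟨α, ClassGroup.mk0 ⟨I, hI0⟩, by rw [hα]; ring, ?_, fun l hl hone => ?_⟩
  · rw [← map_pow, ← Subtype.coe_eta (⟨I, hI0⟩ ^ n : (Ideal (𝓞 K))⁰) (SetLike.coe_mem _),
      ClassGroup.mk0_eq_one_iff]
    exact ⟨⟨α, by rw [SubmonoidClass.coe_pow]; exact hIn⟩⟩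
  rw [← map_pow, ← Subtype.coe_eta (⟨I, hI0⟩ ^ (n / l) : (Ideal (𝓞 K))⁰) (SetLike.coe_mem _),
    ClassGroup.mk0_eq_one_iff] at hone
  obtain ⟨β, hβ⟩ := hone.principal
  rw [SubmonoidClass.coe_pow, Ideal.submodule_span_eq] at hβ
  have h2 := congrArg (· ^ l) hβ
  simp only [← pow_mul, Nat.div_mul_cancel hl, hIn, Ideal.span_singleton_pow] at h2
  obtain ⟨u, hu⟩ := Ideal.span_singleton_eq_span_singleton.1 h2.symm
  exact ⟨u, β, by rw [← hu, mul_comm]⟩

/-- Separating primes keep one of the two classes from being killed by `n / l`. -/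
theorem not_both_pow (hK : finrank ℚ K = 2) (hD : ¬ IsSquare D) (hD0 : 0 < D)
    {δ₀ : 𝓞 K} (hδ : (δ₀ : K) ^ 2 = (D : K)) {n l : ℕ} (hn : 0 < n) (hl : 0 < l) {x x' z z' : ℤ}
    (heq : D = x ^ 2 - 4 * z ^ n) (heq' : D = x' ^ 2 - 4 * z' ^ n)
    (hsep : HasSeparatingPrimes l x x' z z') {α α' β γ : 𝓞 K} {u u' : (𝓞 K)ˣ}
    (hα : 2 * (α : K) = x + δ₀) (hα' : 2 * (α' : K) = x' + δ₀)
    (hu : α = u * β ^ l) (hu' : α' = u' * γ ^ l) : False := by
  obtain ⟨η, hη⟩ := exists_unit_generator hK hD hD0 hδ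
  obtain ⟨a, ha⟩ := hη u
  obtain ⟨b, hb⟩ := hη u'
  obtain ⟨q, q', hq, hq', hq2, hq2', ψ, ψ', v, w, v', w', hz, hx, hxx, hz', hx', hxx', h1, h1',
    hne⟩ := hsep
  haveI := Fact.mk hq
  haveI := Fact.mk hq'
  have hDq : (D : ZMod q) = (x : ZMod q) ^ 2 := by
    rw [heq]; push_cast; rw [hz, zero_pow hn.ne', mul_zero, sub_zero]
  have hDq' : (D : ZMod q') = (x' : ZMod q') ^ 2 := by
    rw [heq']; push_cast; rw [hz', zero_pow hn.ne', mul_zero, sub_zero]
  obtain ⟨π, hπ⟩ := exists_residue hK hD hδ hq2 (hx ▸ w.ne_zero) hDq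
  obtain ⟨π', hπ'⟩ := exists_residue hK hD hδ hq2' (hx' ▸ w'.ne_zero) hDq'
  have hα₀ : 2 * α = (x : 𝓞 K) + δ₀ := RingOfIntegers.ext (by
    push_cast [map_intCast]; exact hα)
  have hα₀' : 2 * α' = (x' : 𝓞 K) + δ₀ := RingOfIntegers.ext (by
    push_cast [map_intCast]; exact hα')
  have h20 : ∀ {p : ℕ}, p.Prime → p ≠ 2 → (2 : ZMod p) ≠ 0 := fun hp h2 h =>
    h2 ((Nat.prime_dvd_prime_iff_eq hp Nat.prime_two).1
      ((ZMod.natCast_eq_zero_iff 2 _).1 (by exact_mod_cast h)))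
  have e1 : π α = (w : ZMod q) := mul_left_cancel₀ (h20 hq hq2) (by
    rw [← map_ofNat π 2, ← map_mul, hα₀, map_add, map_intCast, hπ, map_ofNat, ← hx, two_mul])
  have e2 : π α' = (v : ZMod q) := mul_left_cancel₀ (h20 hq hq2) (by
    rw [← map_ofNat π 2, ← map_mul, hα₀', map_add, map_intCast, hπ, map_ofNat, ← hxx, add_comm])
  have e3 : π' α = (v' : ZMod q') := mul_left_cancel₀ (h20 hq' hq2') (by
    rw [← map_ofNat π' 2, ← map_mul, hα₀, map_add, map_intCast, hπ', map_ofNat, ← hxx'])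
  have e4 : π' α' = (w' : ZMod q') := mul_left_cancel₀ (h20 hq' hq2') (by
    rw [← map_ofNat π' 2, ← map_mul, hα₀', map_add, map_intCast, hπ', map_ofNat, ← hx', two_mul])
  apply hne
  rw [char_eval hl π h1 ha hu e1, char_eval hl π h1 hb hu' e2, char_eval hl π' h1' ha hu e3,
    char_eval hl π' h1' hb hu' e4]
  ring

/-- **A class of order exactly `n`.** -/
theorem exists_orderOf_eq (hK : finrank ℚ K = 2) (hD : ¬ IsSquare D) (hD0 : 0 < D)
    (hδ : δ ^ 2 = (D : K)) {n : ℕ} (hn : 0 < n) {x x' z z' : ℤ} (hz : z ≠ 0) (hz' : z' ≠ 0)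
    (heq : D = x ^ 2 - 4 * z ^ n) (heq' : D = x' ^ 2 - 4 * z' ^ n) (hcop : IsCoprime z x)
    (hcop' : IsCoprime z' x')
    (hsep : ∀ l : ℕ, l.Prime → l ∣ n → HasSeparatingPrimes l x x' z z') :
    ∃ c : ClassGroup (𝓞 K), orderOf c = n := by
  have hint : IsIntegral ℤ δ := IsIntegral.of_pow two_pos (hδ ▸ isIntegral_algebraMap)
  obtain ⟨α, c, hα, hc, hcl⟩ := exists_class hn hz heq hcop hδ
  obtain ⟨α', c', hα', hc', hcl'⟩ := exists_class hn hz' heq' hcop' hδ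
  obtain ⟨y, -, hy⟩ := (Commute.all c c').exists_orderOf_eq_lcm
  refine ⟨y, hy.trans ?_⟩
  have hdvd : Nat.lcm (orderOf c) (orderOf c') ∣ n :=
    Nat.lcm_dvd (orderOf_dvd_of_pow_eq_one hc) (orderOf_dvd_of_pow_eq_one hc')
  by_contra hne
  have h1 : n / Nat.lcm (orderOf c) (orderOf c') ≠ 1 := fun h => hne (by
    have := Nat.div_mul_cancel hdvd
    rwa [h, one_mul] at this)
  obtain ⟨l, hl, hl1⟩ := Nat.exists_prime_and_dvd h1
  have hl2 := (Nat.dvd_div_iff_mul_dvd hdvd).1 hl1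
  have hln : l ∣ n := (dvd_mul_left l _).trans hl2
  have hL : Nat.lcm (orderOf c) (orderOf c') ∣ n / l :=
    (Nat.dvd_div_iff_mul_dvd hln).2 (by rwa [mul_comm] at hl2)
  obtain ⟨u, β, hu⟩ := hcl l hln
    (orderOf_dvd_iff_pow_eq_one.1 ((Nat.dvd_lcm_left _ _).trans hL))
  obtain ⟨u', γ, hu'⟩ := hcl' l hln
    (orderOf_dvd_iff_pow_eq_one.1 ((Nat.dvd_lcm_right _ _).trans hL))
  exact not_both_pow hK hD hD0 (δ₀ := ⟨δ, hint⟩) hδ hn hl.pos heq heq' (hsep l hl hln) hα hα'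
    hu hu'

end FA.RealQuadClasses

end
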