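import Fermat.Agent.RealQuadraticClasses.Residues
import Mathlib.NumberTheory.LSeries.PrimesInAP
import Mathlib.NumberTheory.PrimesCongruentOne
import Mathlib.Data.Nat.ChineseRemainder
import Mathlib.Data.Nat.Squarefree

/-!
# Two expressions `x² - 4 zⁿ`

With `z = z' + t k` and `S = (zⁿ - z'ⁿ)/(z - z')` the numbers `x = t + k S`, `x' = k S - t` have
`x² - 4 zⁿ = x'² - 4 z'ⁿ`. The Chinese remainder theorem and Dirichlet's theorem choose `z`, `z'`,
`k` with separating primes for every prime divisor of `n`, and with a further large prime dividing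
the value exactly once.
-/

set_option autoImplicit false
set_option linter.style.haveILetI false

noncomputable section

namespace FA.RealQuadClasses

open Multiplicative
open scoped Finset

theorem natCast_inj_of_lt {R a b : ℕ} (h : (a : ZMod R) = b) (ha : a < R) (hb : b < R) : a = b :=
  ((ZMod.natCast_eq_natCast_iff a b R).1 h).eq_of_lt_of_lt ha hb

theorem cast_eq_of_modEq {a b m p : ℕ} (h : a ≡ b [MOD m]) (hp : p ∣ m) : (a : ZMod p) = b :=
  (ZMod.natCast_eq_natCast_iff a b p).2 (h.of_dvd hp)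

theorem exists_prime_seq {m : ℕ} (hm : m ≠ 0) (B : ℕ) :
    ∃ e : ℕ → ℕ, Function.Injective e ∧ ∀ i, (e i).Prime ∧ B < e i ∧ m ∣ e i - 1 := by
  have hS : {p : ℕ | p.Prime ∧ B < p ∧ m ∣ p - 1}.Infinite :=
    Set.infinite_of_forall_exists_gt fun a => by
      obtain ⟨p, hp, hlt, hmod⟩ := Nat.exists_prime_gt_modEq_one (k := m) (a + B) hm
      exact ⟨p, ⟨hp, by omega, (Nat.modEq_iff_dvd' hp.one_lt.le).1 hmod.symm⟩, by omega⟩
  exact ⟨fun i => hS.natEmbedding _ i,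
    Subtype.val_injective.comp (hS.natEmbedding _).injective,
    fun i => (hS.natEmbedding _ i).2⟩

theorem exists_crt {P : Finset ℕ} {q : ℕ → ℕ} (hq : ∀ l ∈ P, (q l).Prime)
    (hinj : Set.InjOn q P) (a : ℕ → ℕ) : ∃ k : ℕ, ∀ l ∈ P, k ≡ a l [MOD q l] := by
  obtain ⟨k, hk⟩ := Nat.chineseRemainderOfFinset a q P (fun l hl => (hq l hl).ne_zero)
    fun i hi j hj hij => (Nat.coprime_primes (hq i hi) (hq j hj)).2 fun h => hij (hinj hi hj h)
  exact ⟨k, hk⟩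

/-- The residues at a prime dividing `z` modulo which `z' = 1`. -/
theorem residues_eq {F : Type*} [Field F] {k t S z z' : F} {n : ℕ} (hn : 0 < n) {v : Fˣ}
    (hz : z = 0) (hz' : z' = 1) (hk : k = v) (hkt : k * t = z - z')
    (hS : S * (z - z') = z ^ n - z' ^ n) :
    t + k * S = v - (v⁻¹ : Fˣ) ∧ (t + k * S) + (k * S - t) = 2 * v := by
  subst hz hz' hk
  rw [zero_sub] at hkt hS
  rw [zero_pow hn.ne', one_pow, zero_sub, mul_neg, mul_one, neg_inj] at hS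
  subst hS
  have ht : t = -((v⁻¹ : Fˣ) : F) := by
    linear_combination ((v⁻¹ : Fˣ) : F) * hkt - t * v.inv_mul
  subst ht
  exact ⟨by ring, by ring⟩

theorem exists_mul_prime_modEq {Q m c : ℕ} (hm : m ≠ 0) (hQ : Q.Coprime m) (hc : c.Coprime m)
    (B : ℕ) : ∃ p, B < p ∧ p.Prime ∧ Q * p ≡ c [MOD m] := by
  haveI : NeZero m := ⟨hm⟩
  have hu : IsUnit ((c : ZMod m) * ((ZMod.unitOfCoprime Q hQ)⁻¹ : (ZMod m)ˣ)) :=
    ((ZMod.isUnit_iff_coprime c m).2 hc).mul (Units.isUnit _)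
  obtain ⟨p, hB, hp, hmod⟩ := Nat.forall_exists_prime_gt_and_eq_mod hu B
  refine ⟨p, hB, hp, (ZMod.natCast_eq_natCast_iff _ _ _).1 ?_⟩
  rw [Nat.cast_mul, hmod, mul_left_comm, ← ZMod.coe_unitOfCoprime Q hQ, Units.mul_inv, mul_one]

/-- Residue of the common multiplier modulo a square. -/
theorem exists_mul_modEq {n m : ℕ} (hm : m ≠ 0) (hn : n.Coprime m) (c : ℕ) :
    ∃ k, n * k ≡ c [MOD m] := by
  haveI : NeZero m := ⟨hm⟩
  refine ⟨(((ZMod.unitOfCoprime n hn)⁻¹ : (ZMod m)ˣ) * (c : ZMod m) : ZMod m).val,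
    (ZMod.natCast_eq_natCast_iff _ _ _).1 ?_⟩
  rw [Nat.cast_mul, ZMod.natCast_zmod_val, ← mul_assoc, ← ZMod.coe_unitOfCoprime n hn,
    Units.mul_inv, one_mul]

theorem pow_pred_le_geom {n : ℕ} (hn : 0 < n) {z z' : ℤ} (hz : 0 ≤ z) (hz' : 0 ≤ z') :
    z ^ (n - 1) ≤ ∑ i ∈ Finset.range n, z ^ i * z' ^ (n - 1 - i) := by
  refine le_trans (le_of_eq ?_) (Finset.single_le_sum (f := fun i => z ^ i * z' ^ (n - 1 - i))
    (fun i _ => by positivity) (Finset.mem_range.2 (by omega : n - 1 < n)))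
  simp

theorem sq_sub_four_pow_pos {n : ℕ} (hn : 2 ≤ n) {k t z z' S : ℤ} (hk : 2 ≤ k) (ht : 0 ≤ t)
    (hz' : 1 ≤ z') (hkt : k * t = z - z') (hz : 2 * z' ^ n < z) (hS : z ^ (n - 1) ≤ S) :
    0 < (k * S - t) ^ 2 - 4 * z' ^ n := by
  have hP : 1 ≤ z' ^ n := one_le_pow₀ hz'
  have hzS : z ≤ S := (le_self_pow₀ (by linarith) (by omega)).trans hS
  have h1 : 1 * t ≤ k * t := mul_le_mul_of_nonneg_right (by linarith) ht
  have h2 : 2 * S ≤ k * S := mul_le_mul_of_nonneg_right hk (by linarith)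
  have h3 : z * z ≤ (k * S - t) ^ 2 := by
    rw [pow_two]; exact mul_le_mul (by linarith) (by linarith) (by linarith) (by linarith)
  nlinarith

theorem four_mul_residue {m n : ℕ} {q0 k t S z z' : ℤ} (hz : (z : ZMod m) = 1)
    (hz' : (z' : ZMod m) = 1) (hku : IsUnit (k : ZMod m)) (hnk : (n : ZMod m) * k = 2 + q0)
    (hq0 : (q0 : ZMod m) ^ 2 = 0) (hkt : k * t = z - z')
    (hS : S = ∑ i ∈ Finset.range n, z ^ i * z' ^ (n - 1 - i)) :
    (((t + k * S) ^ 2 - 4 * z ^ n : ℤ) : ZMod m) = 4 * (q0 : ZMod m) := by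
  have hS' : (S : ZMod m) = n := by simp [hS, hz, hz']
  have ht0 : (t : ZMod m) = 0 := by
    have := congrArg (Int.cast : ℤ → ZMod m) hkt
    push_cast at this
    rw [hz, hz', sub_self] at this
    exact hku.mul_right_eq_zero.1 this
  push_cast
  rw [ht0, hS', hz, zero_add, one_pow, mul_comm (k : ZMod m), hnk]
  linear_combination hq0

/-- The large prime dividing `z` does not divide `x`. -/
theorem cast_ne_zero_of_dvd_left {R n k w' : ℕ} (hn : 2 ≤ n) (hk : 2 ≤ k)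
    (hw' : 0 < w') (hlt : k ^ 2 * w' ^ n < R) {t S z : ℤ} (hz : (z : ZMod R) = 0)
    (hkt : (k : ℤ) * t = z - w') (hgeom : S * (z - w') = z ^ n - (w' : ℤ) ^ n) :
    ((t + k * S : ℤ) : ZMod R) ≠ 0 := by
  intro hx0
  have e1 := congrArg (Int.cast : ℤ → ZMod R) hkt
  have e2 := congrArg (Int.cast : ℤ → ZMod R) hgeom
  push_cast at e1 e2 hx0
  rw [hz, zero_sub] at e1 e2
  rw [zero_pow (by omega), zero_sub] at e2
  have h : ((k ^ 2 * w' ^ n : ℕ) : ZMod R) = ((w' ^ 2 : ℕ) : ZMod R) := by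
    push_cast
    linear_combination (w' : ZMod R) * (k : ZMod R) * hx0 - (w' : ZMod R) * e1
      + (k : ZMod R) ^ 2 * e2
  have hle : w' ^ 2 ≤ w' ^ n := Nat.pow_le_pow_right hw' hn
  have h4 : 4 * w' ^ n ≤ k ^ 2 * w' ^ n := Nat.mul_le_mul_right _ (Nat.pow_le_pow_left hk 2)
  have := natCast_inj_of_lt h hlt (by omega)
  have : 0 < w' ^ n := pow_pos hw' n
  omega

/-- The large prime dividing `z'` does not divide `x'`. -/
theorem cast_ne_zero_of_dvd_right {r : ℕ} {n k : ℕ} (hn : 0 < n) (hk : 2 ≤ k)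
    (hlt : k ^ 2 < r) {t S z z' : ℤ} (hz' : (z' : ZMod r) = 0) (hz : (z : ZMod r) = 1)
    (hkt : (k : ℤ) * t = z - z') (hgeom : S * (z - z') = z ^ n - z' ^ n) :
    ((k * S - t : ℤ) : ZMod r) ≠ 0 := by
  intro hx0
  have e1 := congrArg (Int.cast : ℤ → ZMod r) hkt
  have e2 := congrArg (Int.cast : ℤ → ZMod r) hgeom
  push_cast at e1 e2 hx0
  rw [hz', hz, sub_zero] at e1 e2
  rw [zero_pow hn.ne', one_pow, sub_zero, mul_one] at e2
  rw [e2, mul_one] at hx0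
  have h : ((k ^ 2 : ℕ) : ZMod r) = ((1 : ℕ) : ZMod r) := by
    push_cast
    linear_combination (k : ZMod r) * hx0 + e1
  have := natCast_inj_of_lt h hlt (by nlinarith)
  nlinarith

/-- **Parameters.** -/
theorem exists_params {n : ℕ} (hn : 2 ≤ n) (M : ℕ) :
    ∃ (d f : ℕ) (x x' z z' : ℤ), Squarefree d ∧ M < d ∧ 1 < d ∧ 0 < f ∧ z ≠ 0 ∧ z' ≠ 0 ∧
      ((f ^ 2 * d : ℕ) : ℤ) = x ^ 2 - 4 * z ^ n ∧ ((f ^ 2 * d : ℕ) : ℤ) = x' ^ 2 - 4 * z' ^ n ∧
      IsCoprime z x ∧ IsCoprime z' x' ∧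
      ∀ l : ℕ, l.Prime → l ∣ n → HasSeparatingPrimes l x x' z z' := by
  obtain ⟨e, he, heP⟩ := exists_prime_seq (m := 4 * n) (by omega) (M + n + 7)
  set P := n.primeFactors
  set q0 := e 0 with hq0d
  set q : ℕ → ℕ := fun l => e (2 * l + 1) with hqd
  set q' : ℕ → ℕ := fun l => e (2 * l + 2) with hqd'
  have hq : ∀ l, (q l).Prime := fun l => (heP _).1
  have hq' : ∀ l, (q' l).Prime := fun l => (heP _).1
  have hq0 : q0.Prime := (heP _).1
  have hq0B : M + n + 7 < q0 := (heP _).2.1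
  -- the residues
  have hdata : ∀ l, ∃ a a' : ℕ, l ∈ P →
      ∃ (ψ : (ZMod (q l))ˣ →* Multiplicative (ZMod l))
        (ψ' : (ZMod (q' l))ˣ →* Multiplicative (ZMod l))
        (v w : (ZMod (q l))ˣ) (v' w' : (ZMod (q' l))ˣ),
        (a : ZMod (q l)) = v ∧ (a' : ZMod (q' l)) = v' ∧
        (w : ZMod (q l)) = v - (v⁻¹ : (ZMod (q l))ˣ) ∧
        (w' : ZMod (q' l)) = v' - (v'⁻¹ : (ZMod (q' l))ˣ) ∧ ψ (-1) = 1 ∧ ψ' (-1) = 1 ∧
        toAdd (ψ w) * toAdd (ψ' w') ≠ toAdd (ψ v) * toAdd (ψ' v') := by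
    intro l
    by_cases hl : l ∈ P
    · obtain ⟨hlp, hln, -⟩ := Nat.mem_primeFactors.1 hl
      haveI := Fact.mk (hq l)
      haveI := Fact.mk (hq' l)
      obtain ⟨ψ, ψ', v, w, v', w', h⟩ := exists_separated (q := q l) (q' := q' l) hlp
        ((Nat.mul_dvd_mul (by norm_num : 2 ∣ 4) hln).trans (heP _).2.2)
        ((Nat.mul_dvd_mul (by norm_num : 2 ∣ 4) hln).trans (heP _).2.2)
      exact ⟨(v : ZMod (q l)).val, (v' : ZMod (q' l)).val, fun _ => ⟨ψ, ψ', v, w, v', w',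
        ZMod.natCast_zmod_val _, ZMod.natCast_zmod_val _, h⟩⟩
    · exact ⟨0, 0, fun h => absurd h hl⟩
  choose a a' hdata using hdata
  set Q1 := ∏ l ∈ P, q l with hQ1
  set Q2 := ∏ l ∈ P, q' l with hQ2
  have hQ1z : Q1 ≠ 0 := Finset.prod_ne_zero_iff.2 fun l _ => (hq l).ne_zero
  have hQ2z : Q2 ≠ 0 := Finset.prod_ne_zero_iff.2 fun l _ => (hq' l).ne_zero
  have hne : ∀ {i j : ℕ}, i ≠ j → Nat.Coprime (e i) (e j) := fun hij =>
    (Nat.coprime_primes (heP _).1 (heP _).1).2 fun h => hij (he h)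
  have h12 : Nat.Coprime Q1 Q2 := Nat.Coprime.prod_left fun i _ => Nat.Coprime.prod_right
    fun j _ => hne (by omega)
  have h10 : Nat.Coprime Q1 (q0 ^ 2) := Nat.Coprime.prod_left fun i _ =>
    (hne (by omega)).pow_right 2
  have h20 : Nat.Coprime Q2 (q0 ^ 2) := Nat.Coprime.prod_left fun i _ =>
    (hne (by omega)).pow_right 2
  -- `k`
  obtain ⟨k1, hk1⟩ := exists_crt (P := P) (fun l _ => hq l)
    (fun i _ j _ h => by have := he h; omega) a
  obtain ⟨k2, hk2⟩ := exists_crt (P := P) (fun l _ => hq' l)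
    (fun i _ j _ h => by have := he h; omega) a'
  haveI : NeZero (q0 ^ 2) := ⟨pow_ne_zero 2 hq0.ne_zero⟩
  have hn0 : Nat.Coprime n (q0 ^ 2) := (Nat.coprime_comm.1
    (hq0.coprime_iff_not_dvd.2 fun h => by have := Nat.le_of_dvd (by omega) h; omega)).pow_right 2
  obtain ⟨c0, hc0⟩ := exists_mul_modEq (pow_ne_zero 2 hq0.ne_zero) hn0 (2 + q0)
  obtain ⟨k12, hka, hkb⟩ := Nat.chineseRemainder h12 k1 k2
  obtain ⟨k₀, hkc, hkd⟩ := Nat.chineseRemainder (Nat.Coprime.mul_left h10 h20) k12 c0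
  set k := k₀ + 2 * (Q1 * Q2 * q0 ^ 2) with hk
  have hkm : k ≡ k₀ [MOD Q1 * Q2 * q0 ^ 2] := by
    rw [hk]; exact (Nat.modEq_iff_dvd' le_self_add).2 ⟨2, by rw [Nat.add_sub_cancel_left]; ring⟩
      |>.symm
  have hk2le : 2 ≤ k := by
    have : 0 < Q1 * Q2 * q0 ^ 2 :=
      Nat.pos_of_ne_zero (mul_ne_zero (mul_ne_zero hQ1z hQ2z) (pow_ne_zero 2 hq0.ne_zero))
    omega
  have hkQ1 : k ≡ k1 [MOD Q1] := ((hkm.of_dvd (dvd_mul_of_dvd_left (dvd_mul_right _ _) _)).trans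
    (hkc.of_dvd (dvd_mul_right _ _))).trans hka
  have hkQ2 : k ≡ k2 [MOD Q2] := ((hkm.of_dvd (dvd_mul_of_dvd_left (dvd_mul_left _ _) _)).trans
    (hkc.of_dvd (dvd_mul_left _ _))).trans hkb
  have hkq : ∀ l ∈ P, (k : ZMod (q l)) = (a l : ZMod (q l)) := fun l hl =>
    cast_eq_of_modEq ((hkQ1.of_dvd (Finset.dvd_prod_of_mem q hl)).trans (hk1 l hl)) dvd_rfl
  have hkq' : ∀ l ∈ P, (k : ZMod (q' l)) = (a' l : ZMod (q' l)) := fun l hl =>
    cast_eq_of_modEq ((hkQ2.of_dvd (Finset.dvd_prod_of_mem q' hl)).trans (hk2 l hl)) dvd_rfl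
  have hnk : (n : ZMod (q0 ^ 2)) * k = ((2 + q0 : ℕ) : ZMod (q0 ^ 2)) := by
    rw [cast_eq_of_modEq ((hkm.of_dvd (dvd_mul_left _ _)).trans hkd) dvd_rfl, ← Nat.cast_mul]
    exact cast_eq_of_modEq hc0 dvd_rfl
  have h2q : IsUnit ((2 + q0 : ℕ) : ZMod (q0 ^ 2)) := (ZMod.isUnit_iff_coprime _ _).2
    (Nat.Coprime.pow_right 2 (Nat.coprime_add_self_left.2
      ((Nat.coprime_primes Nat.prime_two hq0).2 (by omega))))
  have hku : IsUnit (k : ZMod (q0 ^ 2)) := isUnit_of_mul_isUnit_right (hnk ▸ h2q)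
  have hcQ1 : k.Coprime Q1 := Nat.Coprime.prod_right fun l hl => Nat.coprime_comm.1
    ((hq l).coprime_iff_not_dvd.2 fun h => by
      obtain ⟨ψ, ψ', v, w, v', w', hv, hv', -⟩ := hdata l hl
      haveI := Fact.mk (hq l)
      exact v.ne_zero (by rw [← hv, ← hkq l hl, (ZMod.natCast_eq_zero_iff k _).2 h]))
  have hcQ2 : k.Coprime Q2 := Nat.Coprime.prod_right fun l hl => Nat.coprime_comm.1
    ((hq' l).coprime_iff_not_dvd.2 fun h => by
      obtain ⟨ψ, ψ', v, w, v', w', hv, hv', -⟩ := hdata l hl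
      haveI := Fact.mk (hq' l)
      exact v'.ne_zero (by rw [← hv', ← hkq' l hl, (ZMod.natCast_eq_zero_iff k _).2 h]))
  have hcq0 : k.Coprime (q0 ^ 2) := (ZMod.isUnit_iff_coprime _ _).1 hku
  -- `z'`
  have hQ2c : Q2.Coprime (Q1 * q0 ^ 2) := h12.symm.mul_right h20
  obtain ⟨r, hrB, hr, hw'1⟩ := exists_mul_prime_modEq
    (mul_ne_zero hQ1z (pow_ne_zero 2 hq0.ne_zero)) hQ2c (Nat.coprime_one_left _)
    (k ^ 2 + Q1 + Q2 + q0)
  set w' := Q2 * r with hw'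
  have hk_lt : k < r := by nlinarith
  have hckw' : k.Coprime w' := hcQ2.mul_right (Nat.coprime_comm.1
    (hr.coprime_iff_not_dvd.2 fun h => by have := Nat.le_of_dvd (by omega) h; omega))
  -- `z`
  set N := r * Q2 * q0 ^ 2 with hN
  have hrQ1 : Q1.Coprime r := Nat.coprime_comm.1
    (hr.coprime_iff_not_dvd.2 fun h => by have := Nat.le_of_dvd (by omega) h; omega)
  have hkN : k.Coprime N := ((Nat.coprime_comm.1 (hr.coprime_iff_not_dvd.2 fun h => by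
    have := Nat.le_of_dvd (by omega) h; omega)).mul_right hcQ2).mul_right hcq0
  have hQ1N : Q1.Coprime (k * N) := hcQ1.symm.mul_right ((hrQ1.mul_right h12).mul_right h10)
  obtain ⟨c, hck, hcN⟩ := Nat.chineseRemainder hkN w' 1
  have hc : c.Coprime (k * N) := by
    refine Nat.Coprime.mul_right ?_ ?_
    · rw [Nat.Coprime, hck.gcd_eq]; exact hckw'.symm
    · rw [Nat.Coprime, hcN.gcd_eq, Nat.gcd_one_left]
  obtain ⟨R, hRB, hR, hwc⟩ := exists_mul_prime_modEq (mul_ne_zero (by omega : k ≠ 0)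
    (mul_ne_zero (mul_ne_zero hr.ne_zero hQ2z) (pow_ne_zero 2 hq0.ne_zero))) hQ1N hc
    (k ^ 2 * w' ^ n + 2 * w' ^ n)
  set w := Q1 * R with hw
  have hwk : w ≡ w' [MOD k] := (hwc.of_dvd (dvd_mul_right _ _)).trans hck
  have hwN : w ≡ 1 [MOD N] := (hwc.of_dvd (dvd_mul_left _ _)).trans hcN
  have hw'pos : 0 < w' := Nat.mul_pos (Nat.pos_of_ne_zero hQ2z) hr.pos
  have hw'le : w' ≤ w' ^ n := Nat.le_self_pow (by omega) w'
  have hRw : R ≤ w := Nat.le_mul_of_pos_left R (Nat.pos_of_ne_zero hQ1z)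
  obtain ⟨t, ht⟩ : k ∣ w - w' := (Nat.modEq_iff_dvd' (by omega)).1 hwk.symm
  -- the integers
  set z : ℤ := (w : ℤ) with hzdef
  set z' : ℤ := (w' : ℤ) with hzdef'
  set S : ℤ := ∑ i ∈ Finset.range n, z ^ i * z' ^ (n - 1 - i) with hSdef
  have hgeom : S * (z - z') = z ^ n - z' ^ n := geom_sum₂_mul z z' n
  have hkt : (k : ℤ) * t = z - z' := by
    rw [hzdef, hzdef', ← Nat.cast_sub (by omega), ht, Nat.cast_mul]
  set x : ℤ := t + k * S with hxdef
  set x' : ℤ := k * S - t with hxdef'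
  have hDD : x ^ 2 - 4 * z ^ n = x' ^ 2 - 4 * z' ^ n := by
    rw [hxdef, hxdef']
    linear_combination 4 * S * hkt + 4 * hgeom
  have hpos : 0 < x' ^ 2 - 4 * z' ^ n := by
    refine sq_sub_four_pow_pos hn (by exact_mod_cast hk2le) (Int.natCast_nonneg t) ?_ hkt ?_
      (pow_pred_le_geom (by omega) (Int.natCast_nonneg _) (Int.natCast_nonneg _))
    · rw [hzdef']; exact_mod_cast hw'pos
    · rw [hzdef, hzdef']; exact_mod_cast (show 2 * w' ^ n < w by omega)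
  -- residues at `q0 ^ 2`
  have hD0 : ((x ^ 2 - 4 * z ^ n : ℤ) : ZMod (q0 ^ 2)) = 4 * ((q0 : ℤ) : ZMod (q0 ^ 2)) := by
    refine four_mul_residue ?_ ?_ (by rwa [Int.cast_natCast]) ?_ ?_ hkt hSdef
    · rw [hzdef, Int.cast_natCast, cast_eq_of_modEq hwN (dvd_mul_left _ _), Nat.cast_one]
    · rw [hzdef', Int.cast_natCast, cast_eq_of_modEq hw'1 (dvd_mul_left _ _), Nat.cast_one]
    · rw [Int.cast_natCast, Int.cast_natCast, hnk]; push_cast; ring
    · rw [Int.cast_natCast, ← Nat.cast_pow, ZMod.natCast_self]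
  have h4q0 : ¬ q0 ^ 2 ∣ 4 * q0 := fun h => by
    rw [pow_two, Nat.mul_dvd_mul_iff_right hq0.pos] at h
    have := Nat.le_of_dvd (by norm_num) h
    omega
  obtain ⟨D, hD⟩ : ∃ D : ℕ, (D : ℤ) = x ^ 2 - 4 * z ^ n :=
    ⟨(x ^ 2 - 4 * z ^ n).toNat, Int.toNat_of_nonneg (by linarith [hDD])⟩
  obtain ⟨d, f, hd, hf, hfd, hsq⟩ := Nat.sq_mul_squarefree_of_pos (n := D) (by
    have : (0 : ℤ) < D := by linarith [hDD]
    exact_mod_cast this)
  have hD0' : (D : ZMod (q0 ^ 2)) = ((4 * q0 : ℕ) : ZMod (q0 ^ 2)) := by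
    rw [← Int.cast_natCast D, hD, hD0]; push_cast; rfl
  have hnot : ¬ q0 ^ 2 ∣ D := fun h => h4q0 (by
    rw [← ZMod.natCast_eq_zero_iff, ← hD0', ZMod.natCast_eq_zero_iff]; exact h)
  have hq0D : q0 ∣ D := by
    have h1 := ((ZMod.natCast_eq_natCast_iff _ _ _).1 hD0').of_dvd (dvd_pow_self q0 two_ne_zero)
    exact Nat.modEq_zero_iff_dvd.1 (h1.trans (Nat.modEq_zero_iff_dvd.2 (dvd_mul_left q0 4)))
  have hq0d : q0 ∣ d := (hq0.dvd_mul.1 (hfd ▸ hq0D : q0 ∣ f ^ 2 * d)).resolve_left fun h =>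
    hnot (hfd ▸ dvd_mul_of_dvd_left (pow_dvd_pow_of_dvd (hq0.dvd_of_dvd_pow h) 2) d)
  have hd_ge := Nat.le_of_dvd hd hq0d
  -- residues at the separating primes
  have hat : ∀ l ∈ P, ∃ (ψ : (ZMod (q l))ˣ →* Multiplicative (ZMod l))
      (ψ' : (ZMod (q' l))ˣ →* Multiplicative (ZMod l))
      (v u : (ZMod (q l))ˣ) (v' u' : (ZMod (q' l))ˣ),
      (z : ZMod (q l)) = 0 ∧ (x : ZMod (q l)) = u ∧ (x : ZMod (q l)) + x' = 2 * v ∧
      (z' : ZMod (q' l)) = 0 ∧ (x' : ZMod (q' l)) = u' ∧ (x : ZMod (q' l)) + x' = 2 * v' ∧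
      ψ (-1) = 1 ∧ ψ' (-1) = 1 ∧
      toAdd (ψ u) * toAdd (ψ' u') ≠ toAdd (ψ v) * toAdd (ψ' v') := by
    intro l hl
    obtain ⟨ψ, ψ', v, u, v', u', hv, hv', hu, hu', h1, h1', hsep⟩ := hdata l hl
    haveI := Fact.mk (hq l)
    haveI := Fact.mk (hq' l)
    have hzq : (z : ZMod (q l)) = 0 := by
      rw [hzdef, Int.cast_natCast, ZMod.natCast_eq_zero_iff]
      exact dvd_mul_of_dvd_left (Finset.dvd_prod_of_mem q hl) R
    have hz'q : (z' : ZMod (q l)) = 1 := by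
      rw [hzdef', Int.cast_natCast, cast_eq_of_modEq hw'1
        (dvd_mul_of_dvd_left (Finset.dvd_prod_of_mem q hl) _), Nat.cast_one]
    have hzq' : (z' : ZMod (q' l)) = 0 := by
      rw [hzdef', Int.cast_natCast, ZMod.natCast_eq_zero_iff]
      exact dvd_mul_of_dvd_left (Finset.dvd_prod_of_mem q' hl) r
    have hz1q' : (z : ZMod (q' l)) = 1 := by
      rw [hzdef, Int.cast_natCast, cast_eq_of_modEq hwN
        (dvd_mul_of_dvd_left (dvd_mul_of_dvd_right (Finset.dvd_prod_of_mem q' hl) _) _),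
        Nat.cast_one]
    have e1 := congrArg (Int.cast : ℤ → ZMod (q l)) hkt
    have e2 := congrArg (Int.cast : ℤ → ZMod (q l)) hgeom
    have e3 := congrArg (Int.cast : ℤ → ZMod (q' l)) hkt
    have e4 := congrArg (Int.cast : ℤ → ZMod (q' l)) hgeom
    push_cast at e1 e2 e3 e4
    have h := residues_eq (by omega) hzq hz'q ((hkq l hl).trans hv) e1 e2
    have h' := residues_eq (t := -(t : ZMod (q' l))) (S := (S : ZMod (q' l)))
      (z := (z' : ZMod (q' l))) (z' := (z : ZMod (q' l))) (n := n) (by omega) hzq' hz1q'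
      ((hkq' l hl).trans hv')
      (by linear_combination -e3) (by linear_combination -e4)
    refine ⟨ψ, ψ', v, u, v', u', hzq, ?_, ?_, hzq', ?_, ?_, h1, h1', hsep⟩
    · rw [hxdef, hu, ← h.1]; push_cast; ring
    · rw [hxdef, hxdef', ← h.2]; push_cast; ring
    · rw [hxdef', hu', ← h'.1]; push_cast; ring
    · rw [hxdef, hxdef', ← h'.2]; push_cast; ring
  have hcast : ∀ {p : ℕ}, p.Prime → ∀ {y : ℤ}, (y : ZMod p) ≠ 0 → IsCoprime (p : ℤ) y :=
    fun hp y hy => (Nat.prime_iff_prime_int.1 hp).coprime_iff_not_dvd.2 fun h =>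
      hy ((ZMod.intCast_zmod_eq_zero_iff_dvd _ _).2 h)
  refine ⟨d, f, x, x', z, z', hsq, by omega, by omega, hf, ?_, ?_, by rw [hfd, hD],
    by rw [hfd, hD, hDD], ?_, ?_, fun l hl hln => ?_⟩
  · rw [hzdef]; exact_mod_cast (by omega : w ≠ 0)
  · rw [hzdef']; exact_mod_cast hw'pos.ne'
  · -- `z` and `x`
    rw [hzdef, hw, hQ1, Nat.cast_mul, Nat.cast_prod]
    refine IsCoprime.mul_left (IsCoprime.prod_left fun l hl => hcast (hq l) ?_) (hcast hR ?_)
    · obtain ⟨ψ, ψ', v, u, v', u', -, hxu, -⟩ := hat l hl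
      haveI := Fact.mk (hq l)
      exact hxu ▸ u.ne_zero
    · exact cast_ne_zero_of_dvd_left hn hk2le hw'pos (by omega) (by
        rw [hzdef, Int.cast_natCast, ZMod.natCast_eq_zero_iff]; exact dvd_mul_left R Q1) hkt hgeom
  · -- `z'` and `x'`
    rw [hzdef', hw', hQ2, Nat.cast_mul, Nat.cast_prod]
    refine IsCoprime.mul_left (IsCoprime.prod_left fun l hl => hcast (hq' l) ?_) (hcast hr ?_)
    · obtain ⟨ψ, ψ', v, u, v', u', -, -, -, -, hxu, -⟩ := hat l hl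
      haveI := Fact.mk (hq' l)
      exact hxu ▸ u'.ne_zero
    · exact cast_ne_zero_of_dvd_right (by omega) hk2le (by omega) (by
        rw [hzdef', Int.cast_natCast, ZMod.natCast_eq_zero_iff]; exact dvd_mul_left r Q2) (by
        rw [hzdef, Int.cast_natCast, cast_eq_of_modEq hwN
          (dvd_mul_of_dvd_left (dvd_mul_right _ _) _), Nat.cast_one]) hkt hgeom
  · obtain ⟨ψ, ψ', v, u, v', u', h⟩ :=
      hat l (Nat.mem_primeFactors.2 ⟨hl, hln, by omega⟩)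
    have h2 : ∀ i, e i ≠ 2 := fun i => by have := (heP i).2.1; omega
    exact ⟨q l, q' l, hq l, hq' l, h2 _, h2 _, ψ, ψ', v, u, v', u', h⟩

end FA.RealQuadClasses

end
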