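import Mathlib.RingTheory.ZMod.UnitsCyclic
import Mathlib.FieldTheory.Finite.Basic
import Mathlib.NumberTheory.LegendreSymbol.Basic

/-!
# Residue characters separating two pairs

For a prime `l` and a prime `q` with `2 l ∣ q - 1` there is a surjective character of `(ℤ/q)ˣ`
to `ℤ/l` killing `-1`. Given two such primes `q`, `q'`, there are units `v`, `v'` with

  `ψ (v - 1/v) ψ' (v' - 1/v') ≠ ψ v ψ' v'`.

For odd `l` this is the symmetry `v ↦ 1/v`; for `l = 2` the squares modulo `q` are not closed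
under `a ↦ a - 1`.
-/

set_option autoImplicit false
set_option linter.style.haveILetI false

noncomputable section

namespace FA.RealQuadClasses

open Multiplicative

/-- The conditions on two primes for two classes not both to become powers of order `l`. -/
def HasSeparatingPrimes (l : ℕ) (x x' z z' : ℤ) : Prop :=
  ∃ q q' : ℕ, q.Prime ∧ q'.Prime ∧ q ≠ 2 ∧ q' ≠ 2 ∧
    ∃ (ψ : (ZMod q)ˣ →* Multiplicative (ZMod l)) (ψ' : (ZMod q')ˣ →* Multiplicative (ZMod l))
      (v w : (ZMod q)ˣ) (v' w' : (ZMod q')ˣ),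
      (z : ZMod q) = 0 ∧ (x : ZMod q) = w ∧ (x : ZMod q) + x' = 2 * v ∧
      (z' : ZMod q') = 0 ∧ (x' : ZMod q') = w' ∧ (x : ZMod q') + x' = 2 * v' ∧
      ψ (-1) = 1 ∧ ψ' (-1) = 1 ∧
      toAdd (ψ w) * toAdd (ψ' w') ≠ toAdd (ψ v) * toAdd (ψ' v')

variable {q l : ℕ} [hq : Fact q.Prime]

/-- A surjective character to `ℤ/l` killing `-1`, with the `l`th powers as kernel. -/
theorem exists_character (hl : l.Prime) (hlq : 2 * l ∣ q - 1) :
    ∃ ψ : (ZMod q)ˣ →* Multiplicative (ZMod l), Function.Surjective ψ ∧ ψ (-1) = 1 ∧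
      ∀ u, ψ u = 1 → ∃ w, u = w ^ l := by
  haveI := ZMod.isCyclic_units_prime hq.out
  have hN : Nat.card (ZMod q)ˣ = q - 1 := by rw [Nat.card_eq_fintype_card, ZMod.card_units]
  haveI : NeZero (Nat.card (ZMod q)ˣ) := ⟨Nat.card_pos.ne'⟩
  haveI := Fact.mk hl
  have hdiv : l ∣ Nat.card (ZMod q)ˣ := hN ▸ (dvd_mul_left l 2).trans hlq
  set e := zmodCyclicMulEquiv (G := (ZMod q)ˣ) inferInstance with he
  set g := ZMod.castHom hdiv (ZMod l) with hg
  set ψ : (ZMod q)ˣ →* Multiplicative (ZMod l) :=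
    (AddMonoidHom.toMultiplicative g.toAddMonoidHom).comp e.symm.toMonoidHom with hψ
  have happ : ∀ u, toAdd (ψ u) = g (toAdd (e.symm u)) := fun u => rfl
  refine ⟨ψ, fun a => ?_, ?_, fun u hu => ?_⟩
  · obtain ⟨i, hi⟩ := ZMod.castHom_surjective hdiv (toAdd a)
    exact ⟨e (ofAdd i), toAdd.injective (by rw [happ, e.symm_apply_apply, toAdd_ofAdd]; exact hi)⟩
  · have h2 : toAdd (ψ (-1)) + toAdd (ψ (-1)) = 0 := by
      rw [← toAdd_mul, ← map_mul, neg_one_mul, neg_neg, map_one, toAdd_one]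
    refine toAdd.injective ?_
    rw [toAdd_one]
    rcases hl.eq_two_or_odd with rfl | hodd
    · have h4 : q % 4 ≠ 3 := by
        obtain ⟨c, hc⟩ := hlq
        omega
      obtain ⟨i, hi⟩ := ZMod.exists_sq_eq_neg_one_iff.2 h4
      have hi0 : i ≠ 0 := fun h => by rw [h, mul_zero] at hi; exact neg_ne_zero.2 one_ne_zero hi
      rw [show (-1 : (ZMod q)ˣ) = Units.mk0 i hi0 * Units.mk0 i hi0 from
        Units.ext (by simpa using hi), map_mul, toAdd_mul]
      exact CharTwo.add_self_eq_zero _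
    · rw [← two_mul] at h2
      refine (mul_eq_zero.1 h2).resolve_left fun h => ?_
      have := (ZMod.natCast_eq_zero_iff 2 l).1 (by exact_mod_cast h)
      have := Nat.le_of_dvd two_pos this
      have := hl.two_le
      omega
  · have h0 : g (toAdd (e.symm u)) = 0 := by rw [← happ, hu, toAdd_one]
    set i := toAdd (e.symm u) with hi
    obtain ⟨j, hj⟩ : l ∣ i.val := by
      rw [← ZMod.natCast_eq_zero_iff]
      rwa [← map_natCast g, ZMod.natCast_zmod_val]
    refine ⟨e (ofAdd (j : ZMod (Nat.card (ZMod q)ˣ))), ?_⟩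
    rw [← map_pow, ← ofAdd_nsmul, nsmul_eq_mul, ← Nat.cast_mul, ← hj, ZMod.natCast_zmod_val, hi,
      ofAdd_toAdd, e.apply_symm_apply]

/-- The squares are not closed under `a ↦ a - 1`. -/
theorem exists_sq_sub_one_not_isSquare (hq4 : q % 4 = 1) :
    ∃ v : ZMod q, v ≠ 0 ∧ v ^ 2 ≠ 1 ∧ ¬ IsSquare (v ^ 2 - 1) := by
  by_contra hc
  push Not at hc
  have key : ∀ m : ℕ, IsSquare (-(m : ZMod q)) := by
    intro m
    induction m with
    | zero => simp
    | succ m ih =>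
      obtain ⟨a, ha⟩ := ih
      rw [← pow_two] at ha
      rw [Nat.cast_succ, neg_add, ← sub_eq_add_neg, ha]
      by_cases ha0 : a = 0
      · rw [ha0, zero_pow two_ne_zero, zero_sub]
        exact ZMod.exists_sq_eq_neg_one_iff.2 (by omega)
      · by_cases ha1 : a ^ 2 = 1
        · rw [ha1, sub_self]; exact IsSquare.zero
        · exact hc a ha0 ha1
  obtain ⟨a, ha⟩ := FiniteField.exists_nonsquare (F := ZMod q) (by rw [ZMod.ringChar_zmod_n]; omega)
  refine ha ?_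
  have := key (-a).val
  rwa [ZMod.natCast_zmod_val, neg_neg] at this

/-- `v - 1/v` is a unit when the character of `v` is nontrivial. -/
theorem exists_sub_inv {M : Type*} [MulOneClass M] {ψ : (ZMod q)ˣ →* M} (h1 : ψ (-1) = 1)
    {v : (ZMod q)ˣ} (hv : ψ v ≠ 1) :
    ∃ w : (ZMod q)ˣ, (w : ZMod q) = v - (v⁻¹ : (ZMod q)ˣ) := by
  refine ⟨Units.mk0 _ (sub_ne_zero.2 fun h => hv ?_), rfl⟩
  have h2 : (v : ZMod q) ^ 2 = 1 := by rw [pow_two]; nth_rw 2 [h]; exact v.mul_inv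
  rcases sq_eq_one_iff.1 h2 with h3 | h3
  · rw [show v = 1 from Units.ext (by simpa using h3), map_one]
  · rw [show v = -1 from Units.ext (by simpa using h3), h1]

/-- The unit of `ℤ/2`. -/
theorem eq_one_of_mul_zmod_two : ∀ x y : ZMod 2, x * y = 1 → x = 1 := by decide

variable {q' : ℕ} [hq' : Fact q'.Prime]

/-- **Separation.** -/
theorem exists_separated (hl : l.Prime) (hlq : 2 * l ∣ q - 1) (hlq' : 2 * l ∣ q' - 1) :
    ∃ (ψ : (ZMod q)ˣ →* Multiplicative (ZMod l)) (ψ' : (ZMod q')ˣ →* Multiplicative (ZMod l))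
      (v w : (ZMod q)ˣ) (v' w' : (ZMod q')ˣ),
      (w : ZMod q) = v - (v⁻¹ : (ZMod q)ˣ) ∧ (w' : ZMod q') = v' - (v'⁻¹ : (ZMod q')ˣ) ∧
      ψ (-1) = 1 ∧ ψ' (-1) = 1 ∧
      toAdd (ψ w) * toAdd (ψ' w') ≠ toAdd (ψ v) * toAdd (ψ' v') := by
  haveI := Fact.mk hl
  obtain ⟨ψ, hs, h1, -⟩ := exists_character (q := q) hl hlq
  obtain ⟨ψ', hs', h1', hker'⟩ := exists_character (q := q') hl hlq'
  obtain ⟨v, hv⟩ := hs (ofAdd 1)
  obtain ⟨v', hv'⟩ := hs' (ofAdd 1)
  have hne : (ofAdd 1 : Multiplicative (ZMod l)) ≠ 1 := fun h =>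
    one_ne_zero (α := ZMod l) (by simpa using congrArg toAdd h)
  obtain ⟨w, hw⟩ := exists_sub_inv h1 (hv ▸ hne : ψ v ≠ 1)
  obtain ⟨w', hw'⟩ := exists_sub_inv h1' (hv' ▸ hne : ψ' v' ≠ 1)
  by_cases hA : toAdd (ψ w) * toAdd (ψ' w') = 1
  swap
  · exact ⟨ψ, ψ', v, w, v', w', hw, hw', h1, h1', by simpa [hv, hv'] using hA⟩
  rcases hl.eq_two_or_odd with rfl | hodd
  · -- `l = 2`
    have h4 : q' % 4 = 1 := by
      obtain ⟨c, hc⟩ := hlq'
      have := hq'.out.two_le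
      omega
    obtain ⟨a, ha0, ha1, ha⟩ := exists_sq_sub_one_not_isSquare (q := q') h4
    have hb : a - a⁻¹ ≠ 0 := by
      rw [sub_ne_zero]
      intro h
      exact ha1 (by rw [pow_two]; nth_rw 2 [h]; exact mul_inv_cancel₀ ha0)
    refine ⟨ψ, ψ', v, w, Units.mk0 a ha0, Units.mk0 _ hb, hw, by simp, h1, h1', fun h => ?_⟩
    have hA1 : toAdd (ψ w) = 1 :=
      eq_one_of_mul_zmod_two _ _ hA
    rw [hv, toAdd_ofAdd, one_mul, hA1, one_mul] at h
    have hsum : ψ' (Units.mk0 a ha0 * Units.mk0 _ hb) = 1 := toAdd.injective (by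
      rw [map_mul, toAdd_mul, h, toAdd_one]
      exact CharTwo.add_self_eq_zero _)
    obtain ⟨c, hc⟩ := hker' _ hsum
    refine ha ⟨(c : ZMod q'), ?_⟩
    have := congrArg (Units.val) hc
    push_cast [Units.val_mk0] at this
    rw [← pow_two, ← this, mul_sub, mul_inv_cancel₀ ha0, pow_two]
  · -- odd `l`
    refine ⟨ψ, ψ', v, w, v'⁻¹, -w', hw, ?_, h1, h1', fun h => ?_⟩
    · rw [Units.val_neg, hw', inv_inv]; ring
    rw [show -w' = -1 * w' by rw [neg_one_mul], map_mul, h1', one_mul, hA, map_inv, toAdd_inv,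
      hv, hv', toAdd_ofAdd, mul_neg, mul_one, eq_neg_iff_add_eq_zero, one_add_one_eq_two] at h
    have h2 : (2 : ℕ) = l := by
      refine ((Nat.prime_dvd_prime_iff_eq hl Nat.prime_two).1 ?_).symm
      exact (ZMod.natCast_eq_zero_iff 2 l).1 (by exact_mod_cast h)
    omega

end FA.RealQuadClasses

end
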